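import Mathlib
import Fermat.Agent.LT.T5.H942.NormG
import Fermat.Agent.LT.T7.B981.H503.StepSSpec

/-!
# Row LT, tower T7, leaf T7.L2.1.H2a.A.2.1 `SS503.TrTestC503` (registry row 2869, helper519)

OFF-MAIN.  No hole, nothing assumed.  ADDITIVE (new names only, suffix `519`, namespace
`Fermat.Agent.LT.T7.B981.H519`).

    trTestC519 (K) : SS503.TrTestC503 K        (VERBATIM, unconditional)

The right translate of a test function by a power of a scalar uniformiser is a test function of
the same level: a scalar uniformiser is a scalar matrix of `GL₂(𝔸_K)`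
(`isScalarG_of_scalarUnif519`, componentwise), hence central (`T5.H942.IsScalarG942.commute`),
and so are its powers; then continuity and compact support follow from the homeomorphism
`g ↦ g z^t`, smoothness at infinity and bi-invariance from `φ (g h z^t) = φ ((g z^t) h)`.

Imports: the Spec `T7/B981/H503/StepSSpec.lean` (sha256 b4d9e9b9a691943b) and
`T5/H942/NormG.lean`, which lies in the import closure of the Spec.  No definition of another
file is unfolded by `unfold` / `simp` / `rw` (only `show`, `rfl` and projections).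
-/

set_option autoImplicit false

open AutomorphicForm IsDedekindDomain NumberField MeasureTheory

noncomputable section

namespace Fermat.Agent.LT.T7.B981.H519

open Fermat.Agent.LT.H556 Fermat.Agent.LT.H556.A0 Fermat.Agent.LT.T7

variable {K : Type} [Field K] [NumberField K]

/-- A scalar uniformiser is a scalar matrix of `GL₂(𝔸_K)`. -/
theorem isScalarG_of_scalarUnif519 {v : HeightOneSpectrum (𝓞 K)} {z : G K}
    (hz : IsScalarUniformizerAt v z) : T5.H942.IsScalarG942 z := by
  obtain ⟨⟨hinf, hfin⟩, c, -, hc⟩ := hz
  refine ⟨(z : Matrix (Fin 2) (Fin 2) (Adl K)) 0 0, ?_⟩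
  have hi : ∀ (w : InfinitePlace K) (i j : Fin 2),
      ((z : Matrix (Fin 2) (Fin 2) (Adl K)) i j).1 w
        = (1 : Matrix (Fin 2) (Fin 2) w.Completion) i j := fun w i j => hinf w i j
  have hf : ∀ v' : HeightOneSpectrum (𝓞 K), v' ≠ v → ∀ i j : Fin 2,
      ((z : Matrix (Fin 2) (Fin 2) (Adl K)) i j).2 v'
        = (1 : Matrix (Fin 2) (Fin 2) (v'.adicCompletion K)) i j := fun v' hv' i j =>
    congrFun (congrFun (hfin v' hv') i) j
  have hv : ∀ i j : Fin 2,
      ((z : Matrix (Fin 2) (Fin 2) (Adl K)) i j).2 v
        = (Matrix.diagonal fun _ : Fin 2 => c) i j := fun i j =>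
    congrFun (congrFun hc i) j
  have key : ∀ i j : Fin 2, (z : Matrix (Fin 2) (Fin 2) (Adl K)) i j
      = (Matrix.diagonal fun _ => (z : Matrix (Fin 2) (Fin 2) (Adl K)) 0 0) i j := by
    intro i j
    refine Prod.ext ?_ ?_
    · funext w
      by_cases hij : i = j
      · subst hij
        rw [Matrix.diagonal_apply_eq, hi w i i, hi w 0 0, Matrix.one_apply_eq,
          Matrix.one_apply_eq]
      · rw [Matrix.diagonal_apply_ne _ hij, hi w i j, Matrix.one_apply_ne hij]
        rfl
    · apply Subtype.ext
      funext v'
      by_cases hv' : v' = v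
      · subst hv'
        by_cases hij : i = j
        · subst hij
          rw [Matrix.diagonal_apply_eq]
          show ((z : Matrix (Fin 2) (Fin 2) (Adl K)) i i).2 v'
            = ((z : Matrix (Fin 2) (Fin 2) (Adl K)) 0 0).2 v'
          rw [hv i i, hv 0 0, Matrix.diagonal_apply_eq, Matrix.diagonal_apply_eq]
        · rw [Matrix.diagonal_apply_ne _ hij]
          show ((z : Matrix (Fin 2) (Fin 2) (Adl K)) i j).2 v' = (0 : Adl K).2 v'
          rw [hv i j, Matrix.diagonal_apply_ne _ hij]
          rfl
      · by_cases hij : i = j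
        · subst hij
          rw [Matrix.diagonal_apply_eq]
          show ((z : Matrix (Fin 2) (Fin 2) (Adl K)) i i).2 v'
            = ((z : Matrix (Fin 2) (Fin 2) (Adl K)) 0 0).2 v'
          rw [hf v' hv' i i, hf v' hv' 0 0, Matrix.one_apply_eq, Matrix.one_apply_eq]
        · rw [Matrix.diagonal_apply_ne _ hij]
          show ((z : Matrix (Fin 2) (Fin 2) (Adl K)) i j).2 v' = (0 : Adl K).2 v'
          rw [hf v' hv' i j, Matrix.one_apply_ne hij]
          rfl
  ext i j
  exact key i j

/-- The powers of a scalar uniformiser are central. -/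
theorem scalarUnif_zpow_comm519 {v : HeightOneSpectrum (𝓞 K)} {z : G K}
    (hz : IsScalarUniformizerAt v z) (t : ℤ) (g : G K) : g * z ^ t = z ^ t * g := by
  have h1 : Commute z g := (isScalarG_of_scalarUnif519 hz).commute g
  exact ((h1.zpow_left t).eq).symm

/-- The value of a right translate (definitional). -/
theorem rtr_apply519 (z : G K) (φ : G K → ℂ) (g : G K) : SS503.rtr503 z φ g = φ (g * z) := rfl

/-- **LEAF SS.1 = TR-TEST**, verbatim. -/
theorem trTestC519 (K : Type) [Field K] [NumberField K] : SS503.TrTestC503 K := by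
  intro 𝔫 v z hz t φ hφ
  have hcomm : ∀ g : G K, g * z ^ t = z ^ t * g := scalarUnif_zpow_comm519 hz t
  have hmove : ∀ g h : G K, g * h * z ^ t = g * z ^ t * h := by
    intro g h
    rw [mul_assoc, hcomm h, ← mul_assoc]
  refine ⟨hφ.ktype, ?_, ?_, ?_, ⟨?_, ?_, ?_, ?_⟩⟩
  · -- continuity
    exact hφ.cont.comp (continuous_mul_const (z ^ t))
  · -- compact support
    exact hφ.supp.comp_homeomorph (Homeomorph.mulRight (z ^ t))
  · -- smoothness at infinity
    intro n h hfin hsm g
    have h0 := hφ.smooth n h hfin hsm (g * z ^ t)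
    have e : (fun s => SS503.rtr503 (z ^ t) φ (g * h s)) = fun s => φ (g * z ^ t * h s) := by
      funext s
      rw [rtr_apply519, hmove]
    rw [e]
    exact h0
  · -- level, right
    intro u hu g
    rw [rtr_apply519, rtr_apply519, hmove]
    exact hφ.inv.level_right u hu (g * z ^ t)
  · -- level, left
    intro u hu g
    rw [rtr_apply519, rtr_apply519, mul_assoc]
    exact hφ.inv.level_left u hu (g * z ^ t)
  · -- archimedean, right
    intro w k hk g
    rw [rtr_apply519, rtr_apply519, hmove]
    exact hφ.inv.arch_right w k hk (g * z ^ t)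
  · -- archimedean, left
    intro w k hk g
    rw [rtr_apply519, rtr_apply519, mul_assoc]
    exact hφ.inv.arch_left w k hk (g * z ^ t)

end Fermat.Agent.LT.T7.B981.H519

end
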